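import Mathlib
import Fermat.Agent.LT.T7.H62.RigidStrip

/-!
# Row LT, tower T7, leaf T7.14.6c `IdeleSumC`: SUB-SPEC + PROVED TOP (helper568)

OFF-MAIN.  Definitions, frozen sub-leaf Props and the PROVED assembly

    ideleSumC_of_leaves568 :
      KirValC568 K → NormValC568 K → ArchIntC568 K → IdeleCoordC568 K → NormMeasC568 K →
        Rigid.IdeleSumC K

VERBATIM against `LT/T7/H62/RigidStrip.lean` (helper62@3eb009f31, sha256 `9f2a8c04…`).

## The cut (Tate's thesis: Haar measure of the ideles in coordinates)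

For an idele `y` put `rad y = (|y_w|)_w` (radii at the infinite places),
`OnSupp y` = (`y` in the cell at `S` and `ord_v y ≥ 0` for `v ∉ S`) and
`idl y = ∏_{v ∉ S} v ^ ord_v y` (an integral ideal prime to `S`), `t₀ = ∏_{v ∈ S} |y₀_v|_v`.

* `NormValC568` (algebra): on the support `idl y` is prime to `S` and
  `|y|_𝔸 = ∏_w r_w^{[K_w:ℝ]} · t₀ / N(idl y)`.
* `KirValC568` (algebra): `kir_a(y) conj kir_{a'}(y) |y|⁻¹ = c(𝔞) c̄'(𝔞) / t₀ · ∏_w K₀(c_w r_w)²`
  on the support (`𝔞 = idl y`) and `0` off the support.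
* `ArchIntC568` (real analysis): `∏_w K₀(c_w r_w)² / r_w` is integrable on
  `{r > 0, ∏ r_w^{[K_w:ℝ]} ≥ T}`, `T > 0`.
* `IdeleCoordC568` (measure theory, THE leaf): the support is the disjoint union of the cosets
  `g_𝔞 H` (`𝔞` prime to `S`, `H` the open subgroup `∏_{w} K_wˣ × ∏_{v ∈ S} (1 + 𝔪 𝒪_v) ×
  ∏_{v ∉ S} 𝒪_vˣ`), and the image of `τ|_H` under `rad` is `κ ∏_w dr_w / r_w`:
  `∫ 1_{supp}(y) b(idl y) g(rad y, idl y) dτ = κ ∑_𝔞 b(𝔞) ∫_{r > 0} g(r, 𝔞) ∏_w dr_w / r_w`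
  for `g ≥ 0` measurable with finite inner integrals (then both sides converge or both are the
  junk value `0`).
* `NormMeasC568` (topology): `{y : Y ≤ |y|_𝔸}` is a Borel set of the idele group.
-/

set_option autoImplicit false
set_option linter.unusedSectionVars false
set_option linter.unusedVariables false

open AutomorphicForm IsDedekindDomain NumberField Filter Topology MeasureTheory
open scoped ComplexConjugate

noncomputable section

namespace Fermat.Agent.LT.T7.H568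

open Fermat.Agent.LT.H556 Fermat.Agent.LT.H556.A0 Fermat.Agent.LT.T7 Fermat.Agent.LT.T7.Rigid

variable {K : Type} [Field K] [NumberField K]

/-! ## Vocabulary -/

/-- The radii of the idele `y` at the infinite places. -/
def rad568 (y : (Adl K)ˣ) : InfinitePlace K → ℝ := fun w => ‖(y : Adl K).1 w‖

/-- The support of the model Kirillov functions: `y` in the cell at `S`, integral outside `S`. -/
def OnSupp568 (S : Finset (HeightOneSpectrum (𝓞 K))) (𝔪 : Ideal (𝓞 K)) (y₀ y : (Adl K)ˣ) :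
    Prop :=
  InCell S 𝔪 y₀ y ∧ ∀ v : HeightOneSpectrum (𝓞 K), v ∉ S → 0 ≤ ordI v y

open Classical in
/-- The ideal of the idele `y` outside `S`: `∏_{v ∉ S} v ^ ord_v y`. -/
def idl568 (S : Finset (HeightOneSpectrum (𝓞 K))) (y : (Adl K)ˣ) : Ideal (𝓞 K) :=
  ∏ᶠ v : HeightOneSpectrum (𝓞 K),
    (if v ∈ S then (1 : Ideal (𝓞 K)) else v.asIdeal ^ (ordI v y).toNat)

/-- `𝔞` is a non-zero ideal prime to `S`. -/
def PrimeTo568 (S : Finset (HeightOneSpectrum (𝓞 K))) (𝔞 : Ideal (𝓞 K)) : Prop :=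
  𝔞 ≠ ⊥ ∧ ∀ v ∈ S, ¬ 𝔞 ≤ v.asIdeal

/-- `t₀ = ∏_{v ∈ S} |y₀_v|_v`. -/
def cellNorm568 (S : Finset (HeightOneSpectrum (𝓞 K))) (y₀ : (Adl K)ˣ) : ℝ :=
  ∏ v ∈ S, ‖(y₀ : Adl K).2 v‖

variable (K) in
/-- The positive orthant. -/
def Pos568 : Set (InfinitePlace K → ℝ) := {r | ∀ w, 0 < r w}

/-- The region of `Rigid.archG`. -/
def region568 (T : ℝ) : Set (InfinitePlace K → ℝ) :=
  {r | (∀ w, 0 < r w) ∧ T ≤ ∏ w : InfinitePlace K, r w ^ w.mult}

/-- `∏_w K₀(c_w r_w)²`. -/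
def archW568 (c r : InfinitePlace K → ℝ) : ℝ :=
  ∏ w : InfinitePlace K, besselK0 (c w * r w) ^ 2

/-! ## The sub-leaves -/

variable (K)

/-- **T7.14.6c.1 NORM-VAL (algebra).**  On the support the ideal `idl y` is prime to `S` and
`|y|_𝔸 = ∏_w r_w^{[K_w:ℝ]} · t₀ / N(idl y)`. -/
def NormValC568 : Prop :=
  ∀ (S : Finset (HeightOneSpectrum (𝓞 K))) (𝔪 : Ideal (𝓞 K)) (y₀ : (Adl K)ˣ), IsSupp S 𝔪 →
    ∀ y : (Adl K)ˣ, OnSupp568 S 𝔪 y₀ y →
      PrimeTo568 S (idl568 S y) ∧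
      Fermat.Agent.LT.T5.adNorm (y : Adl K)
        = (∏ w : InfinitePlace K, rad568 y w ^ w.mult) * cellNorm568 S y₀
            / (Ideal.absNorm (idl568 S y) : ℝ)

open Classical in
/-- **T7.14.6c.2 KIR-VAL (algebra).**  The integrand in coordinates. -/
def KirValC568 : Prop :=
  TotCplx K →
  ∀ (S : Finset (HeightOneSpectrum (𝓞 K))) (𝔪 : Ideal (𝓞 K)) (y₀ : (Adl K)ˣ)
    (c : InfinitePlace K → ℝ), IsSupp S 𝔪 →
    ∀ (a a' : HeightOneSpectrum (𝓞 K) → ℂ) (y : (Adl K)ˣ),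
      kir a S 𝔪 y₀ c y * conj (kir a' S 𝔪 y₀ c y)
          * (((Fermat.Agent.LT.T5.adNorm (y : Adl K))⁻¹ : ℝ) : ℂ)
        = if OnSupp568 S 𝔪 y₀ y then
            coef2 a a' (S : Set (HeightOneSpectrum (𝓞 K))) (idl568 S y)
              / ((cellNorm568 S y₀ : ℝ) : ℂ) * ((archW568 c (rad568 y) : ℝ) : ℂ)
          else 0

/-- **T7.14.6c.3 ARCH-INT (real analysis, Mathlib only).**  The integrand of `Rigid.archG` is
integrable on its region. -/
def ArchIntC568 : Prop :=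
  TotCplx K →
  ∀ c : InfinitePlace K → ℝ, (∀ w, 0 < c w) → ∀ T : ℝ, 0 < T →
    IntegrableOn (fun r : InfinitePlace K → ℝ =>
      ∏ w : InfinitePlace K, besselK0 (c w * r w) ^ 2 / r w) (region568 (K := K) T) volume

open Classical in
/-- **T7.14.6c.4 IDELE-COORD (measure theory; THE leaf).**  Haar measure of the ideles in the
coordinates (radii at infinity) × (ideal outside `S`) on the support. -/
def IdeleCoordC568 : Prop :=
  letI : MeasurableSpace (Adl K)ˣ := borel (Adl K)ˣ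
  TotCplx K →
  ∀ τ : Measure (Adl K)ˣ, τ.IsHaarMeasure →
  ∀ (S : Finset (HeightOneSpectrum (𝓞 K))) (𝔪 : Ideal (𝓞 K)) (y₀ : (Adl K)ˣ), IsSupp S 𝔪 →
    ∃ κ : ℝ, 0 < κ ∧
      ∀ (b : Ideal (𝓞 K) → ℂ) (g : (InfinitePlace K → ℝ) → Ideal (𝓞 K) → ℝ),
        (∀ 𝔞, Measurable fun r => g r 𝔞) → (∀ r 𝔞, 0 ≤ g r 𝔞) →
        (∀ 𝔞, PrimeTo568 S 𝔞 →
          IntegrableOn (fun r : InfinitePlace K → ℝ => g r 𝔞 / ∏ w : InfinitePlace K, r w)
            (Pos568 K) volume) →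
        (∀ 𝔞, ¬ PrimeTo568 S 𝔞 → b 𝔞 = 0) →
        ∫ y, (if OnSupp568 S 𝔪 y₀ y then
                b (idl568 S y) * ((g (rad568 y) (idl568 S y) : ℝ) : ℂ) else 0) ∂τ
          = (κ : ℂ) * ∑' 𝔞 : Ideal (𝓞 K),
              b 𝔞 * ((∫ r in Pos568 K, g r 𝔞 / ∏ w : InfinitePlace K, r w : ℝ) : ℂ)

/-- **T7.14.6c.5 NORM-MEAS (topology of the ideles).**  `{y : Y ≤ |y|_𝔸}` is a Borel set. -/
def NormMeasC568 : Prop :=
  letI : MeasurableSpace (Adl K)ˣ := borel (Adl K)ˣ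
  ∀ Y : ℝ, MeasurableSet {y : (Adl K)ˣ | Y ≤ Fermat.Agent.LT.T5.adNorm (y : Adl K)}

variable {K}

/-! ## Auxiliary facts for the assembly -/

theorem unit_snd_ne_zero568 (y : (Adl K)ˣ) (v : HeightOneSpectrum (𝓞 K)) :
    (y : Adl K).2 v ≠ 0 := by
  intro h
  have h1 : ((y : Adl K) * ((y⁻¹ : (Adl K)ˣ) : Adl K)).2 v = (1 : Adl K).2 v := by
    rw [Units.mul_inv]
  have h2 : ((y : Adl K) * ((y⁻¹ : (Adl K)ˣ) : Adl K)).2 v
      = (y : Adl K).2 v * ((y⁻¹ : (Adl K)ˣ) : Adl K).2 v := rfl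
  have h3 : (1 : Adl K).2 v = 1 := rfl
  rw [h2, h3, h, zero_mul] at h1
  exact zero_ne_one h1

theorem cellNorm_pos568 (S : Finset (HeightOneSpectrum (𝓞 K))) (y₀ : (Adl K)ˣ) :
    0 < cellNorm568 S y₀ :=
  Finset.prod_pos fun v _ => norm_pos_iff.mpr (unit_snd_ne_zero568 y₀ v)

theorem measurable_besselK0_568 : Measurable besselK0 := by
  unfold besselK0
  have : StronglyMeasurable (Function.uncurry fun (t u : ℝ) => Real.exp (-t * Real.cosh u)) := by
    apply Continuous.stronglyMeasurable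
    fun_prop
  exact (this.integral_prod_right (ν := volume.restrict (Set.Ioi (0 : ℝ)))).measurable

theorem measurable_archW568 (c : InfinitePlace K → ℝ) : Measurable (archW568 c) := by
  unfold archW568
  refine Finset.measurable_prod _ fun w _ => ?_
  have hm : Measurable fun r : InfinitePlace K → ℝ => c w * r w :=
    measurable_const.mul (measurable_pi_apply w)
  exact (measurable_besselK0_568.comp hm).pow_const 2

theorem measurable_prodMult568 :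
    Measurable fun r : InfinitePlace K → ℝ => ∏ w : InfinitePlace K, r w ^ w.mult :=
  Finset.measurable_prod _ fun w _ => (measurable_pi_apply w).pow_const _

theorem archW_nonneg568 (c r : InfinitePlace K → ℝ) : 0 ≤ archW568 c r :=
  Finset.prod_nonneg fun _ _ => sq_nonneg _

theorem measurableSet_Pos568 : MeasurableSet (Pos568 K) := by
  have : Pos568 K = ⋂ w : InfinitePlace K, {r | 0 < r w} := by
    ext r; simp [Pos568]
  rw [this]
  exact MeasurableSet.iInter fun w => measurableSet_lt measurable_const (measurable_pi_apply w)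

theorem coef2_eq_zero568 (a a' : HeightOneSpectrum (𝓞 K) → ℂ)
    (S : Finset (HeightOneSpectrum (𝓞 K))) {𝔞 : Ideal (𝓞 K)} (h : ¬ PrimeTo568 S 𝔞) :
    coef2 a a' (S : Set (HeightOneSpectrum (𝓞 K))) 𝔞 = 0 := by
  have hz : 𝔞 = ⊥ ∨ ∃ v ∈ (S : Set (HeightOneSpectrum (𝓞 K))), 𝔞 ≤ v.asIdeal := by
    by_contra hcon
    rw [not_or] at hcon
    exact h ⟨hcon.1, fun v hv hle => hcon.2 ⟨v, Finset.mem_coe.mpr hv, hle⟩⟩
  unfold coef2 coef
  rw [if_pos hz, zero_mul]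

/-! ## The assembly -/

/-- **T7.14.6c `IdeleSumC` from its sub-leaves.** -/
theorem ideleSumC_of_leaves568 (h1 : KirValC568 K) (h2 : NormValC568 K) (h3 : ArchIntC568 K)
    (h4 : IdeleCoordC568 K) (h5 : NormMeasC568 K) : IdeleSumC K := by
  classical
  intro hcplx τ hτ S 𝔪 y₀ c hsupp hc
  obtain ⟨κ, hκ, hcoord⟩ := h4 hcplx τ hτ S 𝔪 y₀ hsupp
  have ht₀ : 0 < cellNorm568 S y₀ := cellNorm_pos568 S y₀
  refine ⟨κ / cellNorm568 S y₀, cellNorm568 S y₀, div_pos hκ ht₀, ht₀, ?_⟩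
  intro a a' _ Y hY
  -- the data of the coordinate formula
  set t₀ : ℝ := cellNorm568 S y₀ with ht₀def
  set b : Ideal (𝓞 K) → ℂ :=
    fun 𝔞 => coef2 a a' (S : Set (HeightOneSpectrum (𝓞 K))) 𝔞 / ((t₀ : ℝ) : ℂ) with hb
  set g : (InfinitePlace K → ℝ) → Ideal (𝓞 K) → ℝ := fun r 𝔞 =>
    if Y * (Ideal.absNorm 𝔞 : ℝ) / t₀ ≤ ∏ w : InfinitePlace K, r w ^ w.mult
      then archW568 c r else 0 with hg
  -- the region of `𝔞`
  have hregion : ∀ 𝔞 : Ideal (𝓞 K),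
      Pos568 K ∩ {r | Y * (Ideal.absNorm 𝔞 : ℝ) / t₀ ≤ ∏ w : InfinitePlace K, r w ^ w.mult}
        = region568 (K := K) (Y * (Ideal.absNorm 𝔞 : ℝ) / t₀) := by
    intro 𝔞
    ext r
    simp [Pos568, region568]
  have hmeasR : ∀ 𝔞 : Ideal (𝓞 K), MeasurableSet
      {r : InfinitePlace K → ℝ |
        Y * (Ideal.absNorm 𝔞 : ℝ) / t₀ ≤ ∏ w : InfinitePlace K, r w ^ w.mult} :=
    fun 𝔞 => measurableSet_le measurable_const measurable_prodMult568
  -- `g / ∏ r` as an indicator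
  have hgind : ∀ 𝔞 : Ideal (𝓞 K),
      (fun r : InfinitePlace K → ℝ => g r 𝔞 / ∏ w : InfinitePlace K, r w)
        = Set.indicator
            {r | Y * (Ideal.absNorm 𝔞 : ℝ) / t₀ ≤ ∏ w : InfinitePlace K, r w ^ w.mult}
            (fun r => ∏ w : InfinitePlace K, besselK0 (c w * r w) ^ 2 / r w) := by
    intro 𝔞
    funext r
    rw [Set.indicator_apply]
    simp only [hg, Set.mem_setOf_eq]
    split_ifs with hr
    · rw [Finset.prod_div_distrib]; rfl
    · rw [zero_div]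
  -- the inner integrals are the values of `archG`
  have hinner : ∀ 𝔞 : Ideal (𝓞 K),
      ∫ r in Pos568 K, g r 𝔞 / ∏ w : InfinitePlace K, r w
        = archG c (Y * (Ideal.absNorm 𝔞 : ℝ) / t₀) := by
    intro 𝔞
    rw [hgind 𝔞, setIntegral_indicator (hmeasR 𝔞), hregion 𝔞]
    rfl
  -- hypotheses of the coordinate formula
  have hgm : ∀ 𝔞, Measurable fun r => g r 𝔞 := by
    intro 𝔞
    exact Measurable.ite (hmeasR 𝔞) (measurable_archW568 c) measurable_const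
  have hg0 : ∀ r 𝔞, 0 ≤ g r 𝔞 := by
    intro r 𝔞
    simp only [hg]
    split_ifs
    · exact archW_nonneg568 c r
    · exact le_rfl
  have hgi : ∀ 𝔞, PrimeTo568 S 𝔞 →
      IntegrableOn (fun r : InfinitePlace K → ℝ => g r 𝔞 / ∏ w : InfinitePlace K, r w)
        (Pos568 K) volume := by
    intro 𝔞 h𝔞
    have hN : 0 < (Ideal.absNorm 𝔞 : ℝ) := by
      have : Ideal.absNorm 𝔞 ≠ 0 := fun h0 => h𝔞.1 (Ideal.absNorm_eq_zero_iff.mp h0)
      exact_mod_cast Nat.pos_of_ne_zero this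
    have hT : 0 < Y * (Ideal.absNorm 𝔞 : ℝ) / t₀ := div_pos (mul_pos hY hN) ht₀
    rw [hgind 𝔞, IntegrableOn, integrable_indicator_iff (hmeasR 𝔞), IntegrableOn,
      Measure.restrict_restrict (hmeasR 𝔞), Set.inter_comm, hregion 𝔞]
    exact h3 hcplx c hc _ hT
  have hb0 : ∀ 𝔞, ¬ PrimeTo568 S 𝔞 → b 𝔞 = 0 := by
    intro 𝔞 h𝔞
    simp only [hb]
    rw [coef2_eq_zero568 a a' S h𝔞, zero_div]
  have hmain := hcoord b g hgm hg0 hgi hb0
  -- the integrand
  have hint : ∫ y in {y : (Adl K)ˣ | Y ≤ Fermat.Agent.LT.T5.adNorm (y : Adl K)},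
        kir a S 𝔪 y₀ c y * conj (kir a' S 𝔪 y₀ c y)
          * (((Fermat.Agent.LT.T5.adNorm (y : Adl K))⁻¹ : ℝ) : ℂ) ∂τ
      = ∫ y, (if OnSupp568 S 𝔪 y₀ y then
                b (idl568 S y) * ((g (rad568 y) (idl568 S y) : ℝ) : ℂ) else 0) ∂τ := by
    rw [← integral_indicator (h5 Y)]
    refine integral_congr_ae (Filter.Eventually.of_forall fun y => ?_)
    simp only [Set.indicator_apply, Set.mem_setOf_eq]
    rw [h1 hcplx S 𝔪 y₀ c hsupp a a' y]
    by_cases hy : OnSupp568 S 𝔪 y₀ y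
    · obtain ⟨hprime, hnorm⟩ := h2 S 𝔪 y₀ hsupp y hy
      have hN : 0 < (Ideal.absNorm (idl568 S y) : ℝ) := by
        have : Ideal.absNorm (idl568 S y) ≠ 0 :=
          fun h0 => hprime.1 (Ideal.absNorm_eq_zero_iff.mp h0)
        exact_mod_cast Nat.pos_of_ne_zero this
      have hiff : Y ≤ Fermat.Agent.LT.T5.adNorm (y : Adl K)
          ↔ Y * (Ideal.absNorm (idl568 S y) : ℝ) / t₀
              ≤ ∏ w : InfinitePlace K, rad568 y w ^ w.mult := by
        rw [hnorm, le_div_iff₀ hN, div_le_iff₀ ht₀]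
      rw [if_pos hy, if_pos hy]
      by_cases hs : Y ≤ Fermat.Agent.LT.T5.adNorm (y : Adl K)
      · rw [if_pos hs]
        simp only [hb, hg]
        rw [if_pos (hiff.mp hs)]
      · rw [if_neg hs]
        simp only [hb, hg]
        rw [if_neg (fun h => hs (hiff.mpr h))]
        simp
    · rw [if_neg hy, if_neg hy]
      simp
  rw [hint, hmain]
  -- the right-hand side
  unfold sSum
  have hterm : ∀ 𝔞 : Ideal (𝓞 K),
      b 𝔞 * ((∫ r in Pos568 K, g r 𝔞 / ∏ w : InfinitePlace K, r w : ℝ) : ℂ)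
        = ((t₀ : ℝ) : ℂ)⁻¹ * (coef2 a a' (S : Set (HeightOneSpectrum (𝓞 K))) 𝔞
            * ((archG c (Y * (Ideal.absNorm 𝔞 : ℝ) / t₀) : ℝ) : ℂ)) := by
    intro 𝔞
    rw [hinner 𝔞]
    simp only [hb]
    rw [div_eq_mul_inv]
    ring
  simp_rw [hterm]
  rw [tsum_mul_left]
  push_cast
  rw [div_eq_mul_inv]
  ring

end Fermat.Agent.LT.T7.H568

end
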