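import Mathlib
import Fermat.Agent.LT.T7.H568.IdeleSpec

/-!
# Row LT, tower T7, node T7.14.6c.4 `IdeleCoordC568`: SUB-SPEC (helper568)

OFF-MAIN.  Definitions and frozen sub-leaf Props only (the proved assembly is in
`IdeleCoordTop.lean`).  Nothing is assumed, no `sorry`.

## The cut

`H = {y : y_v ∈ 1 + 𝔪 𝒪_v (v ∈ S), y_v ∈ 𝒪_vˣ (v ∉ S)}` is an open subgroup of the ideles,
the support is the disjoint union of the cosets `E_𝔞 = z_𝔞 H` (`𝔞` prime to `S`), and the image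
of `τ|_H` under `rad` is a non-zero scaling-invariant measure on the positive orthant which is
finite on compact boxes, hence `κ ∏ dr_w / r_w`.

* `CosetC568`    (algebra)   `E_𝔞 = z_𝔞 H` with `rad (z_𝔞 y) = rad y`.
* `HOpenC568`    (topology)  `H` is open in the idele group.
* `HCompactC568` (topology)  `H ∩ {a ≤ rad ≤ b}` is compact.
* `ScaleC568`    (algebra)   scaling of the radii lifts to a translation of the ideles fixing `H`.
* `HaarPosC568`  (Mathlib only) uniqueness of Haar measure on the positive orthant, in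
  coordinates.
* `TonelliSumC568` (Mathlib only) integration over a countable disjoint union of pieces, with
  the junk-value cases.
-/

set_option autoImplicit false
set_option linter.unusedSectionVars false
set_option linter.unusedVariables false

open AutomorphicForm IsDedekindDomain NumberField Filter Topology MeasureTheory
open scoped ComplexConjugate ENNReal

noncomputable section

namespace Fermat.Agent.LT.T7.H568

open Fermat.Agent.LT.H556 Fermat.Agent.LT.H556.A0 Fermat.Agent.LT.T7 Fermat.Agent.LT.T7.Rigid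

variable {K : Type} [Field K] [NumberField K]

/-! ## Vocabulary -/

/-- The coset of the ideal `𝔞` in the support. -/
def cosetSet568 (S : Finset (HeightOneSpectrum (𝓞 K))) (𝔪 : Ideal (𝓞 K)) (y₀ : (Adl K)ˣ)
    (𝔞 : Ideal (𝓞 K)) : Set (Adl K)ˣ :=
  {y | OnSupp568 S 𝔪 y₀ y ∧ idl568 S y = 𝔞}

/-- The open subgroup `H`: `y_v ∈ 1 + 𝔪 𝒪_v` for `v ∈ S`, `y_v ∈ 𝒪_vˣ` for `v ∉ S`. -/
def hSub568 (S : Finset (HeightOneSpectrum (𝓞 K))) (𝔪 : Ideal (𝓞 K)) : Set (Adl K)ˣ :=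
  {y | InCell S 𝔪 1 y ∧ ∀ v : HeightOneSpectrum (𝓞 K), v ∉ S → ordI v y = 0}

/-- The box `a ≤ r_w ≤ b` in the radii. -/
def radBox568 (a b : ℝ) : Set (Adl K)ˣ :=
  {y | ∀ w : InfinitePlace K, a ≤ rad568 y w ∧ rad568 y w ≤ b}

variable (K) in
/-- The measure `∏_w dr_w / r_w` on the positive orthant. -/
def posHaar568 : Measure (InfinitePlace K → ℝ) :=
  (volume.restrict (Pos568 K)).withDensity
    fun r => ENNReal.ofReal (∏ w : InfinitePlace K, r w)⁻¹

/-! ## The sub-leaves -/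

variable (K)

/-- **T7.14.6c.4a COSET (algebra).**  For `𝔞 ≠ 0` prime to `S` there is an idele `z` (trivial
at the infinite places, `y₀` at `S`, `ϖ_v ^ ord_v 𝔞` outside `S`) with `E_𝔞 = z H`. -/
def CosetC568 : Prop :=
  ∀ (S : Finset (HeightOneSpectrum (𝓞 K))) (𝔪 : Ideal (𝓞 K)) (y₀ : (Adl K)ˣ), IsSupp S 𝔪 →
    ∀ 𝔞 : Ideal (𝓞 K), PrimeTo568 S 𝔞 →
      ∃ z : (Adl K)ˣ, (∀ y : (Adl K)ˣ, rad568 (z * y) = rad568 y) ∧
        ∀ y : (Adl K)ˣ, z * y ∈ cosetSet568 S 𝔪 y₀ 𝔞 ↔ y ∈ hSub568 S 𝔪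

/-- **T7.14.6c.4b H-OPEN (topology of the ideles).**  `H` is open. -/
def HOpenC568 : Prop :=
  ∀ (S : Finset (HeightOneSpectrum (𝓞 K))) (𝔪 : Ideal (𝓞 K)), IsSupp S 𝔪 →
    IsOpen (hSub568 S 𝔪)

/-- **T7.14.6c.4c H-COMPACT (topology of the ideles).**  `H ∩ {a ≤ rad ≤ b}` is compact. -/
def HCompactC568 : Prop :=
  ∀ (S : Finset (HeightOneSpectrum (𝓞 K))) (𝔪 : Ideal (𝓞 K)), IsSupp S 𝔪 →
    ∀ a b : ℝ, 0 < a → a ≤ b → IsCompact (hSub568 S 𝔪 ∩ radBox568 (K := K) a b)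

/-- **T7.14.6c.4d SCALE (algebra).**  Scaling of the radii by `t > 0` lifts to the translation
by an idele which is trivial at the finite places. -/
def ScaleC568 : Prop :=
  TotCplx K →
  ∀ t : InfinitePlace K → ℝ, (∀ w, 0 < t w) →
    ∃ z : (Adl K)ˣ, ∀ y : (Adl K)ˣ,
      rad568 (z * y) = (fun w => t w * rad568 y w) ∧
      ∀ (S : Finset (HeightOneSpectrum (𝓞 K))) (𝔪 : Ideal (𝓞 K)),
        (z * y ∈ hSub568 S 𝔪 ↔ y ∈ hSub568 S 𝔪)

end Fermat.Agent.LT.T7.H568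

namespace Fermat.Agent.LT.T7.H568

/-- **T7.14.6c.4e HAAR-POS (Mathlib only).**  A non-zero measure on `ι → ℝ` which is carried by
the positive orthant, invariant under the scalings `r ↦ t r` (`t > 0`) and finite on the boxes
`[a, b]^ι` (`0 < a`) is `κ ∏ dr_i / r_i`. -/
def HaarPosC568 : Prop :=
  ∀ (ι : Type) [Fintype ι] (ρ : Measure (ι → ℝ)),
    ρ {r | ¬ ∀ i, 0 < r i} = 0 →
    (∀ t : ι → ℝ, (∀ i, 0 < t i) → ρ.map (fun r i => t i * r i) = ρ) →
    (∀ a b : ℝ, 0 < a → a ≤ b → ρ {r | ∀ i, a ≤ r i ∧ r i ≤ b} < ⊤) →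
    ρ ≠ 0 →
    ∃ κ : ℝ, 0 < κ ∧
      ∀ h : (ι → ℝ) → ℝ≥0∞, Measurable h →
        ∫⁻ r, h r ∂ρ
          = ENNReal.ofReal κ
              * ∫⁻ r in {r : ι → ℝ | ∀ i, 0 < r i}, h r * ENNReal.ofReal (∏ i, r i)⁻¹

open Classical in
/-- **T7.14.6c.4f TONELLI-SUM (Mathlib only).**  Integration over a countable disjoint union
of pieces `E_a = {x ∈ E : ind x = a}` on each of which the image of `τ` under `φ` is `κ ν`;
both sides are the junk value `0` simultaneously. -/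
def TonelliSumC568 : Prop :=
  ∀ (X R A : Type) [MeasurableSpace X] [MeasurableSpace R] [Countable A]
    (τ : Measure X) (ν : Measure R) (φ : X → R) (ind : X → A) (E : Set X) (P : A → Prop)
    (κ : ℝ), 0 < κ → Measurable φ →
    (∀ a, P a → MeasurableSet {x | x ∈ E ∧ ind x = a}) →
    (∀ a, P a → ∀ h : R → ℝ≥0∞, Measurable h →
      ∫⁻ x in {x | x ∈ E ∧ ind x = a}, h (φ x) ∂τ = ENNReal.ofReal κ * ∫⁻ r, h r ∂ν) →
    ∀ (b : A → ℂ) (g : R → A → ℝ), (∀ a, Measurable fun r => g r a) → (∀ r a, 0 ≤ g r a) →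
      (∀ a, P a → Integrable (fun r => g r a) ν) → (∀ a, ¬ P a → b a = 0) →
      ∫ x, (if x ∈ E then b (ind x) * ((g (φ x) (ind x) : ℝ) : ℂ) else 0) ∂τ
        = (κ : ℂ) * ∑' a : A, b a * ((∫ r, g r a ∂ν : ℝ) : ℂ)

end Fermat.Agent.LT.T7.H568

end
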