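import Mathlib
import Fermat.Agent.LT.T7.H568.IdeleCoordSpec

/-!
# Row LT, tower T7, node T7.14.6c.4 `IdeleCoordC568`: PROVED ASSEMBLY (helper568)

OFF-MAIN.

    ideleCoordC_of_leaves568 :
      CosetC568 K → HOpenC568 K → HCompactC568 K → ScaleC568 K → HaarPosC568 → TonelliSumC568 →
        IdeleCoordC568 K
-/

set_option autoImplicit false
set_option linter.unusedSectionVars false
set_option linter.unusedVariables false

open AutomorphicForm IsDedekindDomain NumberField Filter Topology MeasureTheory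
open scoped ComplexConjugate ENNReal

noncomputable section

namespace Fermat.Agent.LT.T7.H568

open Fermat.Agent.LT.H556 Fermat.Agent.LT.H556.A0 Fermat.Agent.LT.T7 Fermat.Agent.LT.T7.Rigid

variable {K : Type} [Field K] [NumberField K]

/-! ## Elementary facts -/

theorem unit_fst_ne_zero568 (y : (Adl K)ˣ) (w : InfinitePlace K) :
    (y : Adl K).1 w ≠ 0 := by
  intro h
  have h1 : ((y : Adl K) * ((y⁻¹ : (Adl K)ˣ) : Adl K)).1 w = (1 : Adl K).1 w := by
    rw [Units.mul_inv]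
  have h2 : ((y : Adl K) * ((y⁻¹ : (Adl K)ˣ) : Adl K)).1 w
      = (y : Adl K).1 w * ((y⁻¹ : (Adl K)ˣ) : Adl K).1 w := rfl
  have h3 : (1 : Adl K).1 w = 1 := rfl
  rw [h2, h3, h, zero_mul] at h1
  exact zero_ne_one h1

theorem rad_pos568 (y : (Adl K)ˣ) (w : InfinitePlace K) : 0 < rad568 y w :=
  norm_pos_iff.mpr (unit_fst_ne_zero568 y w)

theorem continuous_rad568 : Continuous (rad568 : (Adl K)ˣ → InfinitePlace K → ℝ) := by
  refine continuous_pi fun w => ?_
  have h1 : Continuous fun y : (Adl K)ˣ => (y : Adl K) := Units.continuous_val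
  have h2 : Continuous fun x : Adl K => x.1 := continuous_fst
  have h3 : Continuous fun x : InfiniteAdeleRing K => x w := continuous_apply w
  exact continuous_norm.comp (h3.comp (h2.comp h1))

theorem one_mem_hSub568 (S : Finset (HeightOneSpectrum (𝓞 K))) (𝔪 : Ideal (𝓞 K)) :
    (1 : (Adl K)ˣ) ∈ hSub568 S 𝔪 := by
  refine ⟨fun v _ => ⟨0, ?_, ?_⟩, fun v _ => ?_⟩
  · refine subset_closure ⟨0, 𝔪.zero_mem, ?_⟩
    simp
  · simp
  · have h1 : ((1 : (Adl K)ˣ) : Adl K).2 v = 1 := rfl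
    unfold ordI
    rw [h1, map_one, WithZero.log_one, neg_zero]

instance countable_ideal568 : Countable (Ideal (𝓞 K)) := by
  have hcov : (Set.univ : Set (Ideal (𝓞 K)))
      = ⋃ n : ℕ, {I : Ideal (𝓞 K) | Ideal.absNorm I = n} := by
    ext I
    simp
  have hfin : ∀ n : ℕ, ({I : Ideal (𝓞 K) | Ideal.absNorm I = n}).Countable :=
    fun n => (Ideal.finite_setOfPred_absNorm_eq n).countable
  have : (Set.univ : Set (Ideal (𝓞 K))).Countable := by
    rw [hcov]
    exact Set.countable_iUnion hfin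
  exact Set.countable_univ_iff.mp this


theorem measurableSet_box568 (ι : Type) [Fintype ι] (a b : ℝ) :
    MeasurableSet {r : ι → ℝ | ∀ i, a ≤ r i ∧ r i ≤ b} := by
  have : {r : ι → ℝ | ∀ i, a ≤ r i ∧ r i ≤ b}
      = ⋂ i : ι, {r | a ≤ r i ∧ r i ≤ b} := by
    ext r; simp
  rw [this]
  exact MeasurableSet.iInter fun i =>
    (measurableSet_le measurable_const (measurable_pi_apply i)).inter
      (measurableSet_le (measurable_pi_apply i) measurable_const)

theorem measurable_dens568 :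
    Measurable fun r : InfinitePlace K → ℝ =>
      ENNReal.ofReal (∏ w : InfinitePlace K, r w)⁻¹ :=
  ENNReal.measurable_ofReal.comp
    (Finset.measurable_prod _ fun w _ => measurable_pi_apply w).inv

/-! ## The image of `τ|_H` under `rad` -/

section Haar

variable [MeasurableSpace (Adl K)ˣ] [BorelSpace (Adl K)ˣ]

theorem measurable_rad568 : Measurable (rad568 : (Adl K)ˣ → InfinitePlace K → ℝ) :=
  continuous_rad568.measurable

/-- The image of `τ|_H` under `rad` is `κ ∏ dr / r`. -/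
theorem lintegral_hSub568 (hB : HOpenC568 K) (hC : HCompactC568 K) (hD : ScaleC568 K)
    (hE : HaarPosC568) (hcplx : TotCplx K) (τ : Measure (Adl K)ˣ) [τ.IsHaarMeasure]
    (S : Finset (HeightOneSpectrum (𝓞 K))) (𝔪 : Ideal (𝓞 K)) (hsupp : IsSupp S 𝔪) :
    ∃ κ : ℝ, 0 < κ ∧ ∀ h : (InfinitePlace K → ℝ) → ℝ≥0∞, Measurable h →
      ∫⁻ y in hSub568 S 𝔪, h (rad568 y) ∂τ
        = ENNReal.ofReal κ * ∫⁻ r, h r ∂(posHaar568 K) := by
  classical
  have hHo : IsOpen (hSub568 S 𝔪) := hB S 𝔪 hsupp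
  have hHm : MeasurableSet (hSub568 S 𝔪) := hHo.measurableSet
  have hrad : Measurable (rad568 : (Adl K)ˣ → InfinitePlace K → ℝ) := measurable_rad568
  set ρ : Measure (InfinitePlace K → ℝ) := (τ.restrict (hSub568 S 𝔪)).map rad568 with hρ
  have hρapp : ∀ B : Set (InfinitePlace K → ℝ), MeasurableSet B →
      ρ B = τ (rad568 ⁻¹' B ∩ hSub568 S 𝔪) := by
    intro B hBm
    rw [hρ, Measure.map_apply hrad hBm, Measure.restrict_apply (hrad hBm)]
  -- (i) carried by the positive orthant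
  have h1 : ρ {r | ¬ ∀ w, 0 < r w} = 0 := by
    have hm : MeasurableSet {r : InfinitePlace K → ℝ | ¬ ∀ w, 0 < r w} :=
      (measurableSet_Pos568 (K := K)).compl
    rw [hρapp _ hm]
    have : rad568 ⁻¹' {r : InfinitePlace K → ℝ | ¬ ∀ w, 0 < r w} ∩ hSub568 S 𝔪 = ∅ := by
      ext y
      simp only [Set.mem_inter_iff, Set.mem_preimage, Set.mem_setOf_eq, Set.mem_empty_iff_false,
        iff_false, not_and]
      intro hy
      exact absurd (fun w => rad_pos568 y w) hy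
    rw [this, measure_empty]
  -- (ii) invariant under scalings
  have h2 : ∀ t : InfinitePlace K → ℝ, (∀ w, 0 < t w) →
      ρ.map (fun r w => t w * r w) = ρ := by
    intro t ht
    obtain ⟨z, hz⟩ := hD hcplx t ht
    have hmt : Measurable fun (r : InfinitePlace K → ℝ) (w : InfinitePlace K) => t w * r w :=
      measurable_pi_lambda _ fun w => measurable_const.mul (measurable_pi_apply w)
    refine Measure.ext fun B hBm => ?_
    rw [Measure.map_apply hmt hBm, hρapp _ (hmt hBm), hρapp _ hBm]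
    have hset : rad568 ⁻¹' ((fun (r : InfinitePlace K → ℝ) (w : InfinitePlace K) =>
          t w * r w) ⁻¹' B) ∩ hSub568 S 𝔪
        = (fun y => z * y) ⁻¹' (rad568 ⁻¹' B ∩ hSub568 S 𝔪) := by
      ext y
      simp only [Set.mem_inter_iff, Set.mem_preimage]
      rw [(hz y).1, (hz y).2 S 𝔪]
    rw [hset, measure_preimage_mul]
  -- (iii) finite on boxes
  have h3 : ∀ a b : ℝ, 0 < a → a ≤ b →
      ρ {r : InfinitePlace K → ℝ | ∀ w, a ≤ r w ∧ r w ≤ b} < ⊤ := by
    intro a b ha hab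
    rw [hρapp _ (measurableSet_box568 _ a b)]
    have hset : rad568 ⁻¹' {r : InfinitePlace K → ℝ | ∀ w, a ≤ r w ∧ r w ≤ b} ∩ hSub568 S 𝔪
        = hSub568 S 𝔪 ∩ radBox568 (K := K) a b := by
      ext y
      simp only [Set.mem_inter_iff, Set.mem_preimage, Set.mem_setOf_eq, radBox568]
      exact and_comm
    rw [hset]
    exact (hC S 𝔪 hsupp a b ha hab).measure_lt_top
  -- (iv) non-zero
  have h4 : ρ ≠ 0 := by
    intro h0
    have hu : ρ Set.univ = τ (hSub568 S 𝔪) := by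
      rw [hρapp _ MeasurableSet.univ, Set.preimage_univ, Set.univ_inter]
    have hpos : 0 < τ (hSub568 S 𝔪) := hHo.measure_pos τ ⟨1, one_mem_hSub568 S 𝔪⟩
    rw [h0] at hu
    simp only [Measure.coe_zero, Pi.zero_apply] at hu
    rw [← hu] at hpos
    exact lt_irrefl _ hpos
  obtain ⟨κ, hκ, hform⟩ := hE (InfinitePlace K) ρ h1 h2 h3 h4
  refine ⟨κ, hκ, fun h hh => ?_⟩
  have e1 : ∫⁻ y in hSub568 S 𝔪, h (rad568 y) ∂τ = ∫⁻ r, h r ∂ρ := by
    rw [hρ, lintegral_map hh hrad]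
  have e2 : ∫⁻ r, h r ∂(posHaar568 K)
      = ∫⁻ r in {r : InfinitePlace K → ℝ | ∀ w, 0 < r w},
          h r * ENNReal.ofReal (∏ w : InfinitePlace K, r w)⁻¹ := by
    unfold posHaar568
    rw [lintegral_withDensity_eq_lintegral_mul _ measurable_dens568 hh]
    refine lintegral_congr fun r => ?_
    simp only [Pi.mul_apply]
    rw [mul_comm]
  rw [e1, hform h hh, e2]

/-- The cosets are measurable and carry the same image measure. -/
theorem lintegral_coset568 (hA : CosetC568 K) (hB : HOpenC568 K)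
    (τ : Measure (Adl K)ˣ) [τ.IsHaarMeasure]
    (S : Finset (HeightOneSpectrum (𝓞 K))) (𝔪 : Ideal (𝓞 K)) (y₀ : (Adl K)ˣ)
    (hsupp : IsSupp S 𝔪) (𝔞 : Ideal (𝓞 K)) (h𝔞 : PrimeTo568 S 𝔞) :
    MeasurableSet (cosetSet568 S 𝔪 y₀ 𝔞) ∧
      ∀ h : (InfinitePlace K → ℝ) → ℝ≥0∞, Measurable h →
        ∫⁻ y in cosetSet568 S 𝔪 y₀ 𝔞, h (rad568 y) ∂τ
          = ∫⁻ y in hSub568 S 𝔪, h (rad568 y) ∂τ := by
  classical
  have hHm : MeasurableSet (hSub568 S 𝔪) := (hB S 𝔪 hsupp).measurableSet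
  obtain ⟨z, hzr, hzc⟩ := hA S 𝔪 y₀ hsupp 𝔞 h𝔞
  have hmem : ∀ y : (Adl K)ˣ, y ∈ cosetSet568 S 𝔪 y₀ 𝔞 ↔ z⁻¹ * y ∈ hSub568 S 𝔪 := by
    intro y
    rw [← hzc (z⁻¹ * y), mul_inv_cancel_left]
  have hradz : ∀ y : (Adl K)ˣ, rad568 (z⁻¹ * y) = rad568 y := by
    intro y
    rw [← hzr (z⁻¹ * y), mul_inv_cancel_left]
  have hset : cosetSet568 S 𝔪 y₀ 𝔞 = (fun y => z⁻¹ * y) ⁻¹' hSub568 S 𝔪 := by
    ext y
    exact hmem y
  have hEm : MeasurableSet (cosetSet568 S 𝔪 y₀ 𝔞) := by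
    rw [hset]
    exact hHm.preimage (measurable_const_mul z⁻¹)
  refine ⟨hEm, fun h hh => ?_⟩
  rw [← lintegral_indicator hEm, ← lintegral_indicator hHm]
  have hfun : (fun y => (cosetSet568 S 𝔪 y₀ 𝔞).indicator (fun y => h (rad568 y)) y)
      = fun y => (hSub568 S 𝔪).indicator (fun y => h (rad568 y)) (z⁻¹ * y) := by
    funext y
    by_cases hy : y ∈ cosetSet568 S 𝔪 y₀ 𝔞
    · rw [Set.indicator_of_mem hy, Set.indicator_of_mem ((hmem y).mp hy), hradz]
    · rw [Set.indicator_of_notMem hy,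
        Set.indicator_of_notMem (fun hh' => hy ((hmem y).mpr hh'))]
  rw [hfun]
  exact lintegral_mul_left_eq_self (μ := τ)
    ((hSub568 S 𝔪).indicator fun y => h (rad568 y)) z⁻¹

end Haar


/-! ## The density `1 / ∏ r` -/

theorem dens_lt_top568 (μ : Measure (InfinitePlace K → ℝ)) :
    ∀ᵐ r ∂μ, ENNReal.ofReal (∏ w : InfinitePlace K, r w)⁻¹ < ⊤ :=
  Filter.Eventually.of_forall fun _ => ENNReal.ofReal_lt_top

theorem dens_toReal568 {r : InfinitePlace K → ℝ} (hr : r ∈ Pos568 K) (x : ℝ) :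
    (ENNReal.ofReal (∏ w : InfinitePlace K, r w)⁻¹).toReal • x
      = x / ∏ w : InfinitePlace K, r w := by
  have hpos : 0 < ∏ w : InfinitePlace K, r w := Finset.prod_pos fun w _ => hr w
  rw [ENNReal.toReal_ofReal (inv_nonneg.mpr hpos.le), smul_eq_mul, div_eq_mul_inv, mul_comm]

theorem integrable_posHaar568 {f : (InfinitePlace K → ℝ) → ℝ}
    (hf : IntegrableOn (fun r : InfinitePlace K → ℝ => f r / ∏ w : InfinitePlace K, r w)
      (Pos568 K) volume) :
    Integrable f (posHaar568 K) := by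
  unfold posHaar568
  rw [integrable_withDensity_iff_integrable_smul' measurable_dens568 (dens_lt_top568 _)]
  refine (integrable_congr ?_).mp hf
  refine (ae_restrict_iff' (measurableSet_Pos568 (K := K))).mpr
    (Filter.Eventually.of_forall fun r hr => ?_)
  exact (dens_toReal568 hr (f r)).symm

theorem integral_posHaar568 (f : (InfinitePlace K → ℝ) → ℝ) :
    ∫ r, f r ∂(posHaar568 K)
      = ∫ r in Pos568 K, f r / ∏ w : InfinitePlace K, r w := by
  unfold posHaar568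
  rw [integral_withDensity_eq_integral_toReal_smul measurable_dens568 (dens_lt_top568 _)]
  refine setIntegral_congr_fun (measurableSet_Pos568 (K := K)) fun r hr => ?_
  exact dens_toReal568 hr (f r)

/-! ## The assembly -/

/-- **T7.14.6c.4 `IdeleCoordC568` from its sub-leaves.** -/
theorem ideleCoordC_of_leaves568 (hA : CosetC568 K) (hB : HOpenC568 K) (hC : HCompactC568 K)
    (hD : ScaleC568 K) (hE : HaarPosC568) (hF : TonelliSumC568) : IdeleCoordC568 K := by
  classical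
  let _ : MeasurableSpace (Adl K)ˣ := borel (Adl K)ˣ
  have : BorelSpace (Adl K)ˣ := ⟨rfl⟩
  intro hcplx τ hτ S 𝔪 y₀ hsupp
  have : τ.IsHaarMeasure := hτ
  obtain ⟨κ, hκ, hH⟩ := lintegral_hSub568 hB hC hD hE hcplx τ S 𝔪 hsupp
  refine ⟨κ, hκ, ?_⟩
  intro b g hgm hg0 hgi hb0
  have key := hF (Adl K)ˣ (InfinitePlace K → ℝ) (Ideal (𝓞 K)) τ (posHaar568 K) rad568
    (idl568 S) {y | OnSupp568 S 𝔪 y₀ y} (PrimeTo568 S) κ hκ measurable_rad568
    (fun 𝔞 h𝔞 => (lintegral_coset568 hA hB τ S 𝔪 y₀ hsupp 𝔞 h𝔞).1)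
    (fun 𝔞 h𝔞 h hh => by
      have e := (lintegral_coset568 hA hB τ S 𝔪 y₀ hsupp 𝔞 h𝔞).2 h hh
      have e' := hH h hh
      exact e.trans e')
    b g hgm hg0 (fun 𝔞 h𝔞 => integrable_posHaar568 (hgi 𝔞 h𝔞)) hb0
  simp only [integral_posHaar568] at key
  exact key

end Fermat.Agent.LT.T7.H568

end
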