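import Mathlib
import Fermat.Agent.LT.T7.H568.IdeleCoordTop
import Fermat.Agent.LT.T7.H502.NormVal
import Fermat.Agent.LT.T7.H236.KirVal
import Fermat.Agent.LT.T7.H122.ArchInt
import Fermat.Agent.LT.T7.H319.NormMeas
import Fermat.Agent.LT.T7.H627.Scale
import Fermat.Agent.LT.T7.H627.HaarPos
import Fermat.Agent.LT.T7.H627.TonelliSum
import Fermat.Agent.LT.T7.H546.Coset

/-!
# Row LT, tower T7, leaf T7.14.6c `IdeleSumC`: INTEGRATION (helper568)

OFF-MAIN.  The delivered sub-leaves (byte-identical copies of the owners' files)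

* `normValC502`  (helper502, row 1818), `kirValC236` (helper236, row 1819),
  `archIntC122` (helper122, row 1820), `normMeasC319` (helper319, row 1821),
  `cosetC546` (helper546, row 1901), `scaleC627`, `haarPosC627`, `tonelliSumC627`
  (helper627, rows 1904 / 1905 / 1906)

are wired into the proved tops `ideleSumC_of_leaves568` and `ideleCoordC_of_leaves568`:

    ideleSumC_of_coord568 : IdeleCoordC568 K → Rigid.IdeleSumC K
    ideleSumC_of_open568  : HOpenC568 K → HCompactC568 K → Rigid.IdeleSumC K

The two remaining leaves are topological: `HOpenC568` (row 1902) and `HCompactC568` (row 1903).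
-/

set_option autoImplicit false

open AutomorphicForm IsDedekindDomain NumberField Filter Topology MeasureTheory

noncomputable section

namespace Fermat.Agent.LT.T7.H568

open Fermat.Agent.LT.H556 Fermat.Agent.LT.H556.A0 Fermat.Agent.LT.T7 Fermat.Agent.LT.T7.Rigid

variable (K : Type) [Field K] [NumberField K]

/-- `IdeleSumC` from the coordinate formula alone. -/
theorem ideleSumC_of_coord568 (h4 : IdeleCoordC568 K) : IdeleSumC K :=
  ideleSumC_of_leaves568
    (Fermat.Agent.LT.T7.H236.kirValC236 K (Fermat.Agent.LT.T7.H502.normValC502 K))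
    (Fermat.Agent.LT.T7.H502.normValC502 K)
    (Fermat.Agent.LT.T7.H122.archIntC122 K)
    h4
    (Fermat.Agent.LT.T7.H319.normMeasC319 (K := K))

/-- `IdeleSumC` from the leaves of the coordinate formula which are still open. -/
theorem ideleSumC_of_open568 (hB : HOpenC568 K) (hC : HCompactC568 K) : IdeleSumC K :=
  ideleSumC_of_coord568 K
    (ideleCoordC_of_leaves568 (Fermat.Agent.LT.T7.H546.cosetC546 K) hB hC
      (Fermat.Agent.LT.T7.H627.scaleC627 K) Fermat.Agent.LT.T7.H627.haarPosC627
      Fermat.Agent.LT.T7.H627.tonelliSumC627)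

end Fermat.Agent.LT.T7.H568

end
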