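import Mathlib
import Fermat.Agent.LT.T7.H568.IdeleSum
import Fermat.Agent.LT.T7.H122.HOpen
import Fermat.Agent.LT.T7.H378.HCompact

/-!
# Row LT, tower T7, leaf T7.14.6c `IdeleSumC`: CLOSED (helper568, integrator)

OFF-MAIN.

    ideleCoordC568 (K) : IdeleCoordC568 K
    ideleSumC568 (K)   : Rigid.IdeleSumC K        -- VERBATIM vs RigidStrip 9f2a8c04, every K

Unconditional.  Leaves (byte-identical copies of the owners' files):
`normValC502` (row 1818), `kirValC236` (1819), `archIntC122` (1820), `normMeasC319` (1821),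
`cosetC546` (1901), `hOpenC122` (1902), `hCompactC378` (1903), `scaleC627` (1904),
`haarPosC627` (1905), `tonelliSumC627` (1906); tops `ideleSumC_of_leaves568`,
`ideleCoordC_of_leaves568` (helper568).
-/

set_option autoImplicit false

open AutomorphicForm IsDedekindDomain NumberField Filter Topology MeasureTheory

noncomputable section

namespace Fermat.Agent.LT.T7.H568

open Fermat.Agent.LT.H556 Fermat.Agent.LT.H556.A0 Fermat.Agent.LT.T7 Fermat.Agent.LT.T7.Rigid

variable (K : Type) [Field K] [NumberField K]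

/-- **T7.14.6c.4 `IdeleCoordC568`**, unconditional. -/
theorem ideleCoordC568 : IdeleCoordC568 K :=
  ideleCoordC_of_leaves568 (Fermat.Agent.LT.T7.H546.cosetC546 K)
    (Fermat.Agent.LT.T7.H122.hOpenC122 K) (Fermat.Agent.LT.T7.H378.hCompactC378 K)
    (Fermat.Agent.LT.T7.H627.scaleC627 K) Fermat.Agent.LT.T7.H627.haarPosC627
    Fermat.Agent.LT.T7.H627.tonelliSumC627

/-- **T7.14.6c `IdeleSumC`**, unconditional, every number field `K`. -/
theorem ideleSumC568 : IdeleSumC K :=
  ideleSumC_of_open568 K (Fermat.Agent.LT.T7.H122.hOpenC122 K)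
    (Fermat.Agent.LT.T7.H378.hCompactC378 K)

end Fermat.Agent.LT.T7.H568

end
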